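import Fermat.Agent.S27.NonSpecial

/-!
# S27 / WP C2, algebraic part: counting the zeros of `μ - σ`

If `μ` has only simple zeros `A i`, `i ∈ J`, and `μ - σ` vanishes at the distinct places
`B i`, `i ∈ J`, then these are all the zeros of `μ - σ`, they are simple, and
`∑ B i - ∑ A i = div ((μ - σ) / μ)`.
-/

set_option autoImplicit false
set_option linter.unusedSectionVars false

open AlgebraicCurve WithZero

namespace Fermat.Agent.S27

namespace Pencil

variable {K F : Type*} [Field K] [Field F] [Algebra K F]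

/-- the sum of the places `A i`, `i ∈ J`. -/
noncomputable def fsDiv {ι : Type*} (J : Finset ι) (A : ι → Place K F) : Divisor K F :=
  ∑ i ∈ J, Finsupp.single (A i) 1

theorem fsDiv_apply {ι : Type*} (J : Finset ι) (A : ι → Place K F) (v : Place K F) :
    fsDiv J A v = ∑ i ∈ J, (Finsupp.single (A i) (1 : ℤ)) v := by
  unfold fsDiv
  rw [Finsupp.finsetSum_apply]

theorem fsDiv_apply_of_mem {ι : Type*} {J : Finset ι} {A : ι → Place K F} (hA : Set.InjOn A J)
    {i : ι} (hi : i ∈ J) : fsDiv J A (A i) = 1 := by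
  classical
  rw [fsDiv_apply, Finset.sum_eq_single_of_mem i hi]
  · simp
  · intro j hj hji
    apply Finsupp.single_eq_of_ne
    intro h
    exact hji (hA hj hi h.symm)

theorem fsDiv_apply_of_ne {ι : Type*} {J : Finset ι} {A : ι → Place K F} {v : Place K F}
    (h : ∀ i ∈ J, A i ≠ v) : fsDiv J A v = 0 := by
  rw [fsDiv_apply]
  exact Finset.sum_eq_zero fun j hj => Finsupp.single_eq_of_ne (h j hj).symm

theorem fsDiv_nonneg {ι : Type*} (J : Finset ι) (A : ι → Place K F) : 0 ≤ fsDiv J A :=
  Finset.sum_nonneg fun _ _ => Finsupp.single_nonneg.2 zero_le_one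

theorem sumDiv_eq_fsDiv {ι : Type*} [Fintype ι] (A : ι → Place K F) :
    sumDiv A = fsDiv Finset.univ A := rfl

variable [IsAlgClosed K] [CharZero K] [IsFF K F]

theorem degree_fsDiv {ι : Type*} (J : Finset ι) (A : ι → Place K F) :
    Divisor.degree (fsDiv J A) = J.card := by
  unfold fsDiv
  rw [map_sum]
  simp [deg_eq_one]

theorem ord_eq_one_iff (v : Place K F) {f : F} :
    v.adicValuation f = exp (-1 : ℤ) ↔ f ≠ 0 ∧ v.ord f = 1 := by
  constructor
  · intro h
    have hf : f ≠ 0 := by
      rintro rfl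
      rw [map_zero] at h
      exact exp_ne_zero h.symm
    refine ⟨hf, ?_⟩
    rw [v.adicValuation_eq_exp_neg_ord hf, exp_inj] at h
    omega
  · rintro ⟨hf, h⟩
    rw [v.adicValuation_eq_exp_neg_ord hf, h]

theorem zeros_count {ι : Type*} (J : Finset ι) {μ : F} (hμ : μ ∉ Set.range (algebraMap K F))
    (A B : ι → Place K F) (hA : Set.InjOn A J) (hB : Set.InjOn B J) (σ : K)
    (hA1 : ∀ i ∈ J, (A i).adicValuation μ = exp (-1 : ℤ))
    (hA2 : ∀ v : Place K F, v.adicValuation μ < 1 → ∃ i ∈ J, A i = v)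
    (hB1 : ∀ i ∈ J, (B i).adicValuation (μ - algebraMap K F σ) < 1) :
    (fsDiv J B - fsDiv J A = divOf ((μ - algebraMap K F σ) / μ)) ∧
    (∀ i ∈ J, (B i).adicValuation (μ - algebraMap K F σ) = exp (-1 : ℤ)) ∧
    (∀ v : Place K F, v.adicValuation (μ - algebraMap K F σ) < 1 → ∃ i ∈ J, B i = v) := by
  classical
  set f : F := μ - algebraMap K F σ with hf
  have hμ0 : μ ≠ 0 := by
    rintro rfl
    exact hμ ⟨0, map_zero _⟩
  have hf0 : f ≠ 0 := by
    intro h
    exact hμ ⟨σ, (sub_eq_zero.1 h).symm⟩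
  -- poles of `μ`
  have hα : ∀ v : Place K F, v.ord μ < 0 → v.ord f = v.ord μ ∧ fsDiv J B v = 0 := by
    intro v hv
    have h1 : ¬ v.adicValuation μ ≤ 1 := v.not_adicValuation_le_one_iff.2 hv
    have h2 : v.adicValuation f = v.adicValuation μ :=
      Valuation.map_sub_eq_of_lt_left _
        (lt_of_le_of_lt (v.adicValuation_algebraMap_le_one σ) (not_le.1 h1))
    refine ⟨by unfold Place.ord; rw [h2], fsDiv_apply_of_ne ?_⟩
    rintro i hi rfl
    have := hB1 i hi
    rw [h2] at this
    exact h1 this.le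
  -- the other places
  have hβ : ∀ v : Place K F, 0 ≤ v.ord μ → v.ord μ = fsDiv J A v ∧ fsDiv J B v ≤ v.ord f := by
    intro v hv
    have h1 : v.adicValuation μ ≤ 1 := v.adicValuation_le_one_iff.2 (Or.inr hv)
    have h2 : v.adicValuation f ≤ 1 :=
      (Valuation.map_sub _ _ _).trans (max_le h1 (v.adicValuation_algebraMap_le_one σ))
    have h3 : 0 ≤ v.ord f := (v.adicValuation_le_one_iff.1 h2).resolve_left hf0
    constructor
    · by_cases h : v.adicValuation μ < 1
      · obtain ⟨i, hi, rfl⟩ := hA2 v h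
        rw [fsDiv_apply_of_mem hA hi]
        exact ((ord_eq_one_iff _).1 (hA1 i hi)).2
      · have h4 : ¬ 0 < v.ord μ := fun h' => h ((adic_lt_one_iff_ord v).2 (Or.inr h'))
        rw [fsDiv_apply_of_ne]
        · omega
        · rintro i hi rfl
          exact h4 (by rw [((ord_eq_one_iff _).1 (hA1 i hi)).2]; norm_num)
    · by_cases h : ∃ i ∈ J, B i = v
      · obtain ⟨i, hi, rfl⟩ := h
        rw [fsDiv_apply_of_mem hB hi]
        have := ((adic_lt_one_iff_ord _).1 (hB1 i hi)).resolve_left hf0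
        omega
      · push Not at h
        rw [fsDiv_apply_of_ne h]
        exact h3
  set E : Divisor K F := divOf f - divOf μ - fsDiv J B + fsDiv J A with hE
  have hEv : ∀ v, E v = v.ord f - v.ord μ - fsDiv J B v + fsDiv J A v := by
    intro v
    rw [hE, Finsupp.add_apply, Finsupp.sub_apply, Finsupp.sub_apply, divOf_apply, divOf_apply]
  have hE0 : 0 ≤ E := by
    intro v
    rw [hEv, Finsupp.zero_apply]
    have hAv : 0 ≤ fsDiv J A v := fsDiv_nonneg J A v
    rcases lt_or_ge (v.ord μ) 0 with h | h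
    · obtain ⟨h1, h2⟩ := hα v h
      omega
    · obtain ⟨h1, h2⟩ := hβ v h
      omega
  have hEd : Divisor.degree E = 0 := by
    rw [hE, map_add, map_sub, map_sub, degree_divOf hf0, degree_divOf hμ0, degree_fsDiv,
      degree_fsDiv]
    ring
  have hEz : E = 0 := NS.eq_zero_of_degree_eq_zero hE0 hEd
  have hEz' : ∀ v, v.ord f - v.ord μ - fsDiv J B v + fsDiv J A v = 0 := by
    intro v
    rw [← hEv, hEz, Finsupp.zero_apply]
  have hreg : ∀ v : Place K F, v.adicValuation f < 1 → 0 ≤ v.ord μ := by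
    intro v hv
    have : v.adicValuation μ ≤ 1 := by
      have h1 : μ = f + algebraMap K F σ := by rw [hf]; ring
      rw [h1]
      exact (Valuation.map_add _ _ _).trans (max_le hv.le (v.adicValuation_algebraMap_le_one σ))
    exact (v.adicValuation_le_one_iff.1 this).resolve_left hμ0
  refine ⟨?_, ?_, ?_⟩
  · ext v
    rw [Finsupp.sub_apply, divOf_apply, div_eq_mul_inv, Place.ord_mul _ hf0 (inv_ne_zero hμ0),
      Place.ord_inv]
    have := hEz' v
    omega
  · intro i hi
    rw [ord_eq_one_iff]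
    refine ⟨hf0, ?_⟩
    have h1 := hβ _ (hreg _ (hB1 i hi))
    have h2 := hEz' (B i)
    rw [fsDiv_apply_of_mem hB hi] at h2
    omega
  · intro v hv
    by_contra hcon
    push Not at hcon
    have h1 := hβ _ (hreg _ hv)
    have h2 := hEz' v
    rw [fsDiv_apply_of_ne hcon] at h2
    have h3 := ((adic_lt_one_iff_ord _).1 hv).resolve_left hf0
    omega

end Pencil

end Fermat.Agent.S27
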