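import Fermat.Agent.S27.Sys
import Fermat.Agent.S27.Pencil.Count

/-!
# S27 / WP C2 : the pencil lemma, analytic part and assembly
-/

set_option autoImplicit false
set_option linter.unusedSectionVars false

open AlgebraicCurve WithZero Topology Metric Filter

namespace Fermat.Agent.S27

namespace Pencil

variable {F : Type*} [Field F] [Algebra ℂ F] [IsFF ℂ F]

/-- value `0` at a zero. -/
theorem val_eq_zero_of_lt {v : Place ℂ F} {μ : F} (h : v.adicValuation μ < 1) : val v μ = 0 := by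
  apply val_unique
  simpa using h

/-- local inverse of a function with a simple zero, in a chart. -/
theorem exists_localInverse (ch : Chart F) {μ : F} {x₀ : ℂ} (hx₀ : x₀ ∈ ch.dom)
    (hμ : (ch.Q x₀).adicValuation μ = exp (-1 : ℤ)) :
    ∃ τ : ℂ → ℂ, τ 0 = x₀ ∧
      Tendsto (fun x => val (ch.Q x) μ) (𝓝 x₀) (𝓝 0) ∧
      (∀ᶠ x in 𝓝 x₀, τ (val (ch.Q x) μ) = x) ∧
      (∀ᶠ σ in 𝓝 (0 : ℂ), τ σ ∈ ch.dom ∧
        (ch.Q (τ σ)).adicValuation (μ - algebraMap ℂ F σ) < 1 ∧
        (deriv (fun w => val (ch.Q w) μ) (τ σ) ≠ 0 →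
          HasDerivAt τ (deriv (fun w => val (ch.Q w) μ) (τ σ))⁻¹ σ)) := by
  set m : ℂ → ℂ := fun w => val (ch.Q w) μ with hm
  have hlt : (ch.Q x₀).adicValuation μ < 1 := by
    rw [hμ, ← exp_zero, exp_lt_exp]; norm_num
  have hm0 : m x₀ = 0 := val_eq_zero_of_lt hlt
  have han : AnalyticAt ℂ m x₀ := ch.analytic μ x₀ hx₀ hlt.le
  have hd : deriv m x₀ ≠ 0 := by
    apply ch.deriv_ne_zero hx₀
    rw [show val (ch.Q x₀) μ = 0 from hm0, map_zero, sub_zero]
    exact hμ
  have hs := (han.hasStrictDerivAt).hasStrictFDerivAt_equiv hd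
  set e := hs.toOpenPartialHomeomorph m with he
  have hecoe : (e : ℂ → ℂ) = m := hs.toOpenPartialHomeomorph_coe
  have hsrc : x₀ ∈ e.source := hs.mem_toOpenPartialHomeomorph_source
  have htgt : (0 : ℂ) ∈ e.target := by
    have := hs.image_mem_toOpenPartialHomeomorph_target
    rwa [hm0] at this
  have hτ0 : e.symm 0 = x₀ := by
    have := e.left_inv hsrc
    rwa [hecoe, hm0] at this
  have hcont : ContinuousAt e.symm 0 := e.symm.continuousAt htgt
  refine ⟨e.symm, hτ0, ?_, ?_, ?_⟩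
  · have := han.continuousAt.tendsto
    rwa [hm0] at this
  · filter_upwards [e.open_source.mem_nhds hsrc] with x hx
    have := e.left_inv hx
    rwa [hecoe] at this
  · have h1 : ∀ᶠ σ in 𝓝 (0 : ℂ), σ ∈ e.target := e.open_target.mem_nhds htgt
    have h2 : ∀ᶠ σ in 𝓝 (0 : ℂ), e.symm σ ∈ ch.dom := by
      apply hcont.eventually_mem
      rw [hτ0]
      exact isOpen_ball.mem_nhds hx₀
    have h3 : ∀ᶠ σ in 𝓝 (0 : ℂ), (ch.Q (e.symm σ)).adicValuation μ ≤ 1 := by
      have := ch.regular_nhds μ x₀ hx₀ hlt.le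
      rw [← hτ0] at this
      exact hcont.eventually this
    filter_upwards [h1, h2, h3] with σ hσ1 hσ2 hσ3
    have hmσ : m (e.symm σ) = σ := by
      have := e.right_inv hσ1
      rwa [hecoe] at this
    refine ⟨hσ2, ?_, ?_⟩
    · have := val_spec _ hσ3
      rwa [show val (ch.Q (e.symm σ)) μ = σ from hmσ] at this
    · intro hne
      apply e.hasDerivAt_symm hσ1 hne
      rw [hecoe]
      exact (ch.analytic μ _ hσ2 hσ3).differentiableAt.hasDerivAt

/-- places in different charts of a disjoint family are different. -/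
theorem chart_index_eq {ι : Type*} {ch : ι → Chart F}
    (hdisj : ∀ i j, i ≠ j → Disjoint (ch i).img (ch j).img) {i j : ι} {x y : ℂ}
    (hx : x ∈ (ch i).dom) (hy : y ∈ (ch j).dom) (h : (ch i).Q x = (ch j).Q y) : i = j := by
  by_contra hij
  exact Set.disjoint_left.1 (hdisj i j hij) ⟨x, hx, rfl⟩ ⟨y, hy, h.symm⟩

/-- the pencil lemma for a finite family of disjoint charts. -/
theorem pencil_aux {ι : Type*} [Fintype ι] (ch : ι → Chart F)
    (hdisj : ∀ i j, i ≠ j → Disjoint (ch i).img (ch j).img)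
    (x₀ : ι → ℂ) (hx₀ : ∀ i, x₀ i ∈ (ch i).dom)
    (φ : F) (hφ : φ ∈ riemannRochSpace (sumDiv fun i => (ch i).Q (x₀ i)))
    (i₀ : ι) (hi₀ : ((ch i₀).Q (x₀ i₀)).adicValuation φ = exp (1 : ℤ)) :
    ∀ᶠ z in 𝓝 (x₀ i₀), ∃ x : ι → ℂ, (∀ i, x i ∈ (ch i).dom) ∧ x i₀ = z ∧
      LinEq (sumDiv fun i => (ch i).Q (x i)) (sumDiv fun i => (ch i).Q (x₀ i)) ∧
      ∀ lam : WD ℂ F, ∑ i, (ch i).prim lam (x i) = ∑ i, (ch i).prim lam (x₀ i) := by
  classical
  set pl : ι → Place ℂ F := fun i => (ch i).Q (x₀ i) with hpl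
  have hpl_inj : Function.Injective pl := fun i j h => chart_index_eq hdisj (hx₀ i) (hx₀ j) h
  set μ : F := φ⁻¹ with hμdef
  set J : Finset ι := Finset.univ.filter fun i => (pl i).adicValuation φ = exp (1 : ℤ) with hJ
  have hi₀J : i₀ ∈ J := by simp [hJ, hpl, hi₀]
  have hA1 : ∀ i ∈ J, (pl i).adicValuation μ = exp (-1 : ℤ) := by
    intro i hi
    have : (pl i).adicValuation φ = exp (1 : ℤ) := (Finset.mem_filter.1 hi).2
    rw [hμdef, map_inv₀, this, ← exp_neg]
  have hφ0 : φ ≠ 0 := by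
    rintro rfl
    rw [map_zero] at hi₀
    exact exp_ne_zero hi₀.symm
  have hA2 : ∀ v : Place ℂ F, v.adicValuation μ < 1 → ∃ i ∈ J, pl i = v := by
    intro v hv
    have h1 : ¬ v.adicValuation φ ≤ 1 := by
      intro h
      rw [hμdef, map_inv₀] at hv
      exact absurd hv (not_lt.2 ((one_le_inv₀ (zero_lt_iff.2 (v.adicValuation_ne_zero hφ0))).2 h))
    have h2 := hφ v
    by_cases hex : ∃ i, pl i = v
    · obtain ⟨i, rfl⟩ := hex
      refine ⟨i, ?_, rfl⟩
      rw [hJ, Finset.mem_filter]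
      refine ⟨Finset.mem_univ _, ?_⟩
      by_contra hne
      apply h1
      have h3 : sumDiv pl (pl i) = 0 + 1 := by
        rw [sumDiv_eq_fsDiv, fsDiv_apply_of_mem hpl_inj.injOn (Finset.mem_univ i)]
        norm_num
      rw [h3] at h2
      have := NS.le_exp_of_le_of_ne h2 (by simpa using hne)
      simpa using this
    · push Not at hex
      rw [NS.sumDiv_apply_of_ne pl hex] at h2
      exact absurd (by simpa using h2) h1
  have hμnc : μ ∉ Set.range (algebraMap ℂ F) := by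
    rintro ⟨c, hc⟩
    have h1 := hA1 i₀ hi₀J
    rw [← hc] at h1
    rcases eq_or_ne c 0 with rfl | hc0
    · rw [map_zero, map_zero] at h1
      exact exp_ne_zero h1.symm
    · rw [adic_algebraMap _ hc0, ← exp_zero, exp_inj] at h1
      norm_num at h1
  -- the local inverses
  have hex : ∀ i, ∃ τ : ℂ → ℂ, τ 0 = x₀ i ∧ (i ∉ J → ∀ σ, τ σ = x₀ i) ∧
      (i ∈ J → Tendsto (fun x => val ((ch i).Q x) μ) (𝓝 (x₀ i)) (𝓝 0) ∧
        (∀ᶠ x in 𝓝 (x₀ i), τ (val ((ch i).Q x) μ) = x) ∧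
        (∀ᶠ σ in 𝓝 (0 : ℂ), τ σ ∈ (ch i).dom ∧
          ((ch i).Q (τ σ)).adicValuation (μ - algebraMap ℂ F σ) < 1 ∧
          (deriv (fun w => val ((ch i).Q w) μ) (τ σ) ≠ 0 →
            HasDerivAt τ (deriv (fun w => val ((ch i).Q w) μ) (τ σ))⁻¹ σ))) := by
    intro i
    by_cases hi : i ∈ J
    · obtain ⟨τ, h0, h1, h2, h3⟩ := exists_localInverse (ch i) (hx₀ i) (hA1 i hi)
      exact ⟨τ, h0, fun h => absurd hi h, fun _ => ⟨h1, h2, h3⟩⟩
    · exact ⟨fun _ => x₀ i, rfl, fun _ _ => rfl, fun h => absurd h hi⟩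
  choose τ hτ0 hτc hτJ using hex
  have hgood : ∀ᶠ σ in 𝓝 (0 : ℂ), ∀ i ∈ J, τ i σ ∈ (ch i).dom ∧
      ((ch i).Q (τ i σ)).adicValuation (μ - algebraMap ℂ F σ) < 1 ∧
      (deriv (fun w => val ((ch i).Q w) μ) (τ i σ) ≠ 0 →
        HasDerivAt (τ i) (deriv (fun w => val ((ch i).Q w) μ) (τ i σ))⁻¹ σ) :=
    (Filter.eventually_all_finset J).2 fun i hi => (hτJ i hi).2.2
  obtain ⟨δ, hδ, hball⟩ := Metric.eventually_nhds_iff_ball.1 hgood
  -- consequences at a good `σ`
  have hdom : ∀ σ ∈ ball (0 : ℂ) δ, ∀ i, τ i σ ∈ (ch i).dom := by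
    intro σ hσ i
    by_cases hi : i ∈ J
    · exact (hball σ hσ i hi).1
    · rw [hτc i hi]
      exact hx₀ i
  have hcount : ∀ σ ∈ ball (0 : ℂ) δ,
      (fsDiv J (fun i => (ch i).Q (τ i σ)) - fsDiv J pl = divOf ((μ - algebraMap ℂ F σ) / μ)) ∧
      (∀ i ∈ J, ((ch i).Q (τ i σ)).adicValuation (μ - algebraMap ℂ F σ) = exp (-1 : ℤ)) ∧
      (∀ v : Place ℂ F, v.adicValuation (μ - algebraMap ℂ F σ) < 1 →
        ∃ i ∈ J, (ch i).Q (τ i σ) = v) := by
    intro σ hσ
    apply zeros_count J hμnc pl (fun i => (ch i).Q (τ i σ)) hpl_inj.injOn ?_ σ hA1 hA2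
      (fun i hi => (hball σ hσ i hi).2.1)
    intro i _ j _ h
    exact chart_index_eq hdisj (hdom σ hσ i) (hdom σ hσ j) h
  have hlin : ∀ σ ∈ ball (0 : ℂ) δ,
      LinEq (sumDiv fun i => (ch i).Q (τ i σ)) (sumDiv pl) := by
    intro σ hσ
    have h1 : (sumDiv fun i => (ch i).Q (τ i σ)) - sumDiv pl =
        fsDiv J (fun i => (ch i).Q (τ i σ)) - fsDiv J pl := by
      unfold sumDiv fsDiv
      rw [← Finset.sum_sub_distrib, ← Finset.sum_sub_distrib]
      symm
      apply Finset.sum_subset (Finset.subset_univ J)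
      intro i _ hi
      show Finsupp.single ((ch i).Q (τ i σ)) (1 : ℤ) - Finsupp.single ((ch i).Q (x₀ i)) 1 = 0
      rw [hτc i hi, sub_self]
    unfold LinEq
    rw [h1, (hcount σ hσ).1, mem_principal_iff]
    refine ⟨_, ?_, rfl⟩
    apply div_ne_zero
    · intro h
      exact hμnc ⟨σ, (sub_eq_zero.1 h).symm⟩
    · exact inv_ne_zero hφ0
  have hderiv : ∀ lam : WD ℂ F, ∀ σ ∈ ball (0 : ℂ) δ,
      HasDerivAt (fun s => ∑ i, (ch i).prim lam (τ i s)) 0 σ := by
    intro lam σ hσ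
    obtain ⟨-, hc2, hc3⟩ := hcount σ hσ
    have h1 : ∀ i ∈ Finset.univ, HasDerivAt (fun s => (ch i).prim lam (τ i s))
        (if i ∈ J then lam.loc ((ch i).Q (τ i σ)) (μ - algebraMap ℂ F σ)⁻¹ else 0) σ := by
      intro i _
      by_cases hi : i ∈ J
      · rw [if_pos hi]
        obtain ⟨hd1, hd2, hd3⟩ := hball σ hσ i hi
        have hval : val ((ch i).Q (τ i σ)) μ = σ := val_unique _ hd2
        have hsimple : ((ch i).Q (τ i σ)).adicValuation
            (μ - algebraMap ℂ F (val ((ch i).Q (τ i σ)) μ)) = exp (-1 : ℤ) := by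
          rw [hval]
          exact hc2 i hi
        have hne := (ch i).deriv_ne_zero hd1 hsimple
        have hloc := (ch i).loc_inv_sub lam hd1 hsimple
        rw [hval] at hloc
        rw [hloc]
        exact ((ch i).hasDerivAt_prim lam hd1).comp σ (hd3 hne)
      · rw [if_neg hi]
        have : (fun s => (ch i).prim lam (τ i s)) = fun _ => (ch i).prim lam (x₀ i) := by
          funext s
          rw [hτc i hi]
        rw [this]
        exact hasDerivAt_const _ _
    have h2 := HasDerivAt.fun_sum h1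
    have h3 : (∑ i, if i ∈ J then lam.loc ((ch i).Q (τ i σ)) (μ - algebraMap ℂ F σ)⁻¹ else 0)
        = 0 := by
      rw [Finset.sum_ite_mem, Finset.univ_inter]
      have hinj : Set.InjOn (fun i => (ch i).Q (τ i σ)) J := by
        intro i _ j _ h
        exact chart_index_eq hdisj (hdom σ hσ i) (hdom σ hσ j) h
      have := WD.sum_loc lam (μ - algebraMap ℂ F σ)⁻¹ (J.image fun i => (ch i).Q (τ i σ)) ?_
      · rwa [Finset.sum_image hinj] at this
      · intro v hv
        have hlt : v.adicValuation (μ - algebraMap ℂ F σ) < 1 := by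
          by_contra hcon
          apply hv
          rw [map_inv₀]
          exact inv_le_one_of_one_le₀ (not_lt.1 hcon)
        obtain ⟨i, hi, rfl⟩ := hc3 v hlt
        exact Finset.mem_image_of_mem _ hi
    rwa [h3] at h2
  have hconst : ∀ lam : WD ℂ F, ∀ σ ∈ ball (0 : ℂ) δ,
      ∑ i, (ch i).prim lam (τ i σ) = ∑ i, (ch i).prim lam (x₀ i) := by
    intro lam σ hσ
    have h1 : (fun s => ∑ i, (ch i).prim lam (τ i s)) σ =
        (fun s => ∑ i, (ch i).prim lam (τ i s)) 0 := by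
      apply IsOpen.is_const_of_fderiv_eq_zero (𝕜 := ℂ) isOpen_ball
        (convex_ball (0 : ℂ) δ).isPreconnected
        (fun s hs => (hderiv lam s hs).differentiableAt.differentiableWithinAt)
        ?_ hσ (mem_ball_self hδ)
      intro s hs
      rw [(hderiv lam s hs).hasFDerivAt.fderiv]
      simp
    simpa [hτ0] using h1
  -- conclusion
  obtain ⟨ht1, ht2, -⟩ := hτJ i₀ hi₀J
  filter_upwards [ht1.eventually (isOpen_ball.mem_nhds (mem_ball_self hδ)), ht2] with z hz1 hz2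
  exact ⟨fun i => τ i (val ((ch i₀).Q z) μ), hdom _ hz1, hz2, hlin _ hz1,
    fun lam => hconst lam _ hz1⟩

/-- **C2**, the pencil lemma (exact statement of `Sys.pencil`). -/
theorem pencil_main {g : ℕ} (hg : genusFF ℂ F = g) (S : Sys F g) (b : Fin g → WD ℂ F) {ρ : ℝ}
    (hS : S.Good b ρ) (c0 : Chart F) (hdisj : ∀ j, Disjoint (S.ch j).img c0.img)
    {w₀ : Fin g → ℂ} (hw₀ : w₀ ∈ S.dom) {z₀ : ℂ} (hz₀ : z₀ ∈ c0.dom) :
    ∀ᶠ z in 𝓝 z₀, ∃ w ∈ S.dom,
      LinEq (sumDiv (S.pt w) + Finsupp.single (c0.Q z) 1)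
        (sumDiv (S.pt w₀) + Finsupp.single (c0.Q z₀) 1) ∧
      S.Psi b w + c0.I b z = S.Psi b w₀ + c0.I b z₀ := by
  classical
  have hNS : IsNS (S.pt w₀) := S.isNS_pt b hg hS hw₀
  have hR : ∀ j, S.pt w₀ j ≠ c0.Q z₀ := by
    intro j h
    exact Set.disjoint_left.1 (hdisj j) ⟨w₀ j, hw₀ j, rfl⟩ ⟨z₀, hz₀, h.symm⟩
  obtain ⟨φ, hφ, hφR⟩ := hNS.exists_pencil hg (c0.Q z₀) hR
  let ch : Option (Fin g) → Chart F := fun k => k.elim c0 S.ch
  let x₀ : Option (Fin g) → ℂ := fun k => k.elim z₀ w₀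
  have hsum : ∀ x : Option (Fin g) → ℂ, (sumDiv fun k => (ch k).Q (x k)) =
      sumDiv (S.pt fun j => x (some j)) + Finsupp.single (c0.Q (x none)) 1 := by
    intro x
    unfold sumDiv
    rw [Fintype.sum_option, add_comm]
    rfl
  have hd : ∀ i j, i ≠ j → Disjoint (ch i).img (ch j).img := by
    intro i j hij
    cases i with
    | none =>
      cases j with
      | none => exact absurd rfl hij
      | some j => exact (hdisj j).symm
    | some i =>
      cases j with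
      | none => exact hdisj i
      | some j => exact S.disj i j fun h => hij (by rw [h])
  have hx₀ : ∀ k, x₀ k ∈ (ch k).dom := by
    intro k
    cases k with
    | none => exact hz₀
    | some j => exact hw₀ j
  have key := pencil_aux ch hd x₀ hx₀ φ (by rw [hsum]; exact hφ) none hφR
  filter_upwards [key] with z hz
  obtain ⟨x, hx1, hx2, hx3, hx4⟩ := hz
  refine ⟨fun j => x (some j), fun j => hx1 (some j), ?_, ?_⟩
  · rw [hsum, hsum, hx2] at hx3
    exact hx3
  · funext i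
    have := hx4 (b i)
    rw [Fintype.sum_option, Fintype.sum_option, hx2] at this
    simp only [Sys.Psi, Pi.add_apply, Finset.sum_apply, Chart.I]
    rw [add_comm, add_comm (∑ j, _)]
    exact this

end Pencil

end Fermat.Agent.S27
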